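import Mathlib
import Fermat.Prelude.Def_FLTPrelim_Ramification
import Fermat.Agent.MUL.Orig.S05.H65.Sym
import Fermat.Agent.MUL.Orig.S05.H5.Inertia
import Fermat.Agent.MUL.Orig.S05.H5.IntVal
import Fermat.Agent.MUL.Orig.S05.H5.Galois
import Fermat.Agent.MUL.S05.H65.Translate
import Fermat.Agent.MUL.S17.H.Pos.Data

section MergeWrap_S05_H75_ZPoint -- from S05/H75/ZPoint.lean

/-!
# (C3): an inertia-fixed point with prescribed `ξ`-coordinate `e ^ M`
-/

set_option autoImplicit false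
set_option linter.unusedSectionVars false
set_option linter.unusedVariables false

namespace S05H75

open WeierstrassCurve S05H65

/-- In a linearly ordered commutative group with zero, `a ^ 2 = 1` implies `a = 1`. -/
lemma eq_one_of_sq_eq_one {Γ₀ : Type*} [LinearOrderedCommGroupWithZero Γ₀] {a : Γ₀}
    (h : a ^ 2 = 1) : a = 1 := by
  rcases lt_trichotomy a 1 with hlt | heq | hgt
  · exfalso
    have : a ^ 2 < 1 := pow_lt_one₀ zero_le hlt (by norm_num)
    exact absurd h (ne_of_lt this)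
  · exact heq
  · exfalso
    have : 1 < a ^ 2 := one_lt_pow₀ hgt (by norm_num)
    exact absurd h (ne_of_gt this)

theorem exists_fixed_point_with_xi
    {K : Type*} [Field K] [IsAlgClosed K] [CharZero K] {Γ₀ : Type*}
    [LinearOrderedCommGroupWithZero Γ₀]
    (v : Valuation K Γ₀) (W : WeierstrassCurve.Affine K) (hΔ : W.Δ ≠ 0)
    (s d b e : K)
    (hb₂ : W.b₂ = b - 3 * s) (hb₄ : 8 * W.b₄ = 3 * s ^ 2 - 2 * s * b - d ^ 2)
    (hb₆ : 16 * W.b₆ = (s ^ 2 - d ^ 2) * (b - s))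
    (h2 : v 2 = 1) (hb : v b = 1) {p : ℕ} (hd : v d = v e ^ p) (he : v e < 1) (he0 : e ≠ 0)
    (σ : K →+* K) (hσ : ∀ a : K, v a ≤ 1 → v (σ a - a) < 1)
    (hσa₁ : σ W.a₁ = W.a₁) (hσa₃ : σ W.a₃ = W.a₃)
    (hσs : σ s = s) (hσe : σ e = e) (hσd : σ (d ^ 2) = d ^ 2) (hσb : σ b = b)
    {M : ℕ} (hM : 0 < M) (hMp : M < p) :
    ∃ (x y : K) (h : W.Nonsingular x y), 4 * x - s = e ^ M ∧ σ x = x ∧ σ y = y := by
  have heM0 : e ^ M ≠ 0 := pow_ne_zero M he0
  have hve0 : v e ≠ 0 := (Valuation.ne_zero_iff v).mpr he0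
  have hve_pos : 0 < v e := zero_lt_iff.mpr hve0
  -- the unit U
  set U : K := (1 - d ^ 2 / e ^ (2 * M)) * (e ^ M + b) with hU
  have hvq : v (d ^ 2 / e ^ (2 * M)) < 1 := by
    rw [map_div₀, map_pow, map_pow, hd, ← pow_mul]
    have hlt : 2 * M < p * 2 := by omega
    have h1 : v e ^ (p * 2) < v e ^ (2 * M) := pow_lt_pow_right_of_lt_one₀ hve_pos he hlt
    have h2 : 0 < v e ^ (2 * M) := pow_pos hve_pos _
    exact (div_lt_one₀ h2).mpr h1
  have hv1 : v (1 - d ^ 2 / e ^ (2 * M)) = 1 := Valuation.map_one_sub_of_lt v hvq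
  have hveM : v (e ^ M) < 1 := by
    rw [map_pow]
    exact pow_lt_one₀ zero_le he (by omega)
  have hv2 : v (e ^ M + b) = 1 := by
    rw [← hb]
    apply Valuation.map_add_eq_of_lt_right
    rw [hb]; exact hveM
  have hvU : v U = 1 := by rw [hU, map_mul, hv1, hv2, one_mul]
  have hσU : σ U = U := by
    rw [hU]
    simp only [map_mul, map_sub, map_add, map_one, map_div₀, map_pow, hσe, hσb]
    rw [← map_pow, hσd]
  -- a square root of U
  obtain ⟨r, hr⟩ := IsAlgClosed.exists_pow_nat_eq U (n := 2) (by norm_num)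
  have hvr : v r = 1 := by
    apply eq_one_of_sq_eq_one
    rw [← map_pow, hr, hvU]
  have hσr : σ r = r := by
    have hsq : (σ r) ^ 2 = r ^ 2 := by rw [← map_pow, hr, hσU]
    rcases sq_eq_sq_iff_eq_or_eq_neg.mp hsq with h | h
    · exact h
    · exfalso
      have h1 := hσ r hvr.le
      rw [h] at h1
      have e1 : -r - r = -(2 * r) := by ring
      rw [e1, Valuation.map_neg, map_mul, h2, hvr, one_mul] at h1
      exact lt_irrefl _ h1
  have h4 : (4 : K) ≠ 0 := by norm_num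
  have h2' : (2 : K) ≠ 0 := by norm_num
  have hσ2 : σ (2 : K) = 2 := map_ofNat σ 2
  have hσ4 : σ (4 : K) = 4 := map_ofNat σ 4
  set x : K := (e ^ M + s) / 4 with hx
  set Y : K := r * e ^ M / 4 with hY
  set y : K := (Y - W.a₁ * x - W.a₃) / 2 with hy
  have hxi : 4 * x - s = e ^ M := by rw [hx]; field_simp; ring
  have hσx : σ x = x := by
    rw [hx, map_div₀, map_add, map_pow, hσe, hσs, hσ4]
  have hσY : σ Y = Y := by
    rw [hY, map_div₀, map_mul, map_pow, hσe, hσr, hσ4]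
  have hσy : σ y = y := by
    rw [hy, map_div₀, map_sub, map_sub, map_mul, hσY, hσa₁, hσx, hσa₃, hσ2]
  -- the equation
  have hpsi : 16 * (4 * x ^ 3 + W.b₂ * x ^ 2 + 2 * W.b₄ * x + W.b₆) =
      ((4 * x - s) ^ 2 - d ^ 2) * ((4 * x - s) + b) := by
    linear_combination hb₆ + (4 * x) * hb₄ + (16 * x ^ 2) * hb₂
  have hYsq : 16 * Y ^ 2 = ((4 * x - s) ^ 2 - d ^ 2) * ((4 * x - s) + b) := by
    rw [hxi, hY]
    have e2 : e ^ (2 * M) = (e ^ M) ^ 2 := by rw [← pow_mul, mul_comm]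
    have : 16 * (r * e ^ M / 4) ^ 2 = r ^ 2 * (e ^ M) ^ 2 := by field_simp; ring
    rw [this, hr, hU, e2]
    field_simp
  have hYpsi : Y ^ 2 = 4 * x ^ 3 + W.b₂ * x ^ 2 + 2 * W.b₄ * x + W.b₆ := by
    have h16 : (16 : K) ≠ 0 := by norm_num
    apply mul_left_cancel₀ h16
    rw [hYsq, hpsi]
  have hY2 : Y = 2 * y + W.a₁ * x + W.a₃ := by rw [hy]; field_simp; ring
  have heq : W.Equation x y := by
    rw [Affine.equation_iff]
    rw [hY2] at hYpsi
    simp only [WeierstrassCurve.b₂, WeierstrassCurve.b₄, WeierstrassCurve.b₆] at hYpsi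
    have h4' : (4 : K) ≠ 0 := h4
    apply mul_left_cancel₀ h4'
    linear_combination hYpsi
  exact ⟨x, y, (Affine.equation_iff_nonsingular_of_Δ_ne_zero hΔ).mp heq, hxi, hσx, hσy⟩

end S05H75
end MergeWrap_S05_H75_ZPoint

section MergeWrap_S05_H5_Assembly -- from S05/H5/Assembly.lean

set_option autoImplicit false

namespace S05H5

open WeierstrassCurve WeierstrassCurve.Affine WeierstrassCurve.Affine.Point S05H65 S05H75

section

variable {K : Type*} [Field K] [DecidableEq K] [Algebra ℚ K] [IsAlgClosed K] [CharZero K]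

/-- The hypotheses on a rational Weierstrass curve `E` at a valuation `v` that make the
`n`-torsion unramified: either good reduction, or the nodal normal form with `v d = v e ^ n`. -/
def GoodOrNodal {Γ₀ : Type*} [LinearOrderedCommGroupWithZero Γ₀] (v : Valuation K Γ₀)
    (E : WeierstrassCurve ℚ) (n : ℕ) : Prop :=
  (¬ v (E⁄K).Δ < 1) ∨
    ∃ s d b e : ℚ,
      (E⁄K).b₂ = algebraMap ℚ K b - 3 * algebraMap ℚ K s ∧
      8 * (E⁄K).b₄ = 3 * algebraMap ℚ K s ^ 2 - 2 * algebraMap ℚ K s * algebraMap ℚ K b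
        - algebraMap ℚ K d ^ 2 ∧
      16 * (E⁄K).b₆ = (algebraMap ℚ K s ^ 2 - algebraMap ℚ K d ^ 2) *
        (algebraMap ℚ K b - algebraMap ℚ K s) ∧
      v (algebraMap ℚ K b) = 1 ∧ v (algebraMap ℚ K s) ≤ 1 ∧
      v (algebraMap ℚ K d) = v (algebraMap ℚ K e) ^ n ∧ v (algebraMap ℚ K e) < 1 ∧ e ≠ 0

/-- Abstract assembly: a `ℚ`-automorphism acting trivially modulo the maximal ideal fixes the
`n`-torsion points. -/
theorem map_eq_self_of_goodOrNodal {Γ₀ : Type*} [LinearOrderedCommGroupWithZero Γ₀]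
    (v : Valuation K Γ₀) (E : WeierstrassCurve ℚ)
    (ha₁ : v (E⁄K).a₁ ≤ 1) (ha₂ : v (E⁄K).a₂ ≤ 1) (ha₃ : v (E⁄K).a₃ ≤ 1)
    (ha₄ : v (E⁄K).a₄ ≤ 1) (ha₆ : v (E⁄K).a₆ ≤ 1) (hΔ : (E⁄K).Δ ≠ 0)
    {n : ℕ} (hodd : Odd n) (hn : v (n : K) = 1) (h2 : v (2 : K) = 1)
    (hE : GoodOrNodal v E n)
    (σ : K →ₐ[ℚ] K) (hσ : ∀ a : K, v a ≤ 1 → v (σ a - a) < 1)
    (hσ' : ∀ a : K, 1 < v a → 1 < v (σ a))
    (X : (E⁄K).Point) (hX : n • X = 0) : Point.map σ X = X := by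
  rcases hE with hgood | ⟨s, d, b, e, hb₂, hb₄, hb₆, hvb, hvs, hvd, hve, he0⟩
  · exact map_eq_self_of_good_reduction v E ha₁ ha₂ ha₃ ha₄ ha₆ hgood σ hσ hn X hX
  · have he0' : algebraMap ℚ K e ≠ 0 := by
      rw [Ne, map_eq_zero]; exact he0
    have hn0 : 0 < n := hodd.pos
    have hvd1 : v (algebraMap ℚ K d) < 1 := by
      rw [hvd]
      exact pow_lt_one₀ zero_le hve hn0.ne'
    refine map_eq_self_of_nodal v E ha₁ ha₂ ha₃ ha₄ ha₆ (algebraMap ℚ K s) (algebraMap ℚ K d)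
      (algebraMap ℚ K b) hb₂ hb₄ hb₆ hvs hvd1 σ hσ hσ' hn X hX ?_
    intro hξ hX0
    obtain ⟨M, hM0, hMn, hM⟩ := nodal_translate v (E⁄K) (algebraMap ℚ K s) (algebraMap ℚ K d)
      (algebraMap ℚ K b) (algebraMap ℚ K e) n ⟨hb₂, hb₄, hb₆⟩ h2 hvb hvd hve he0' hodd X hX0 hX hξ
    have hfix : ∀ r : ℚ, (σ : K →+* K) (algebraMap ℚ K r) = algebraMap ℚ K r :=
      fun r => σ.commutes r
    obtain ⟨x, y, h, hx, hσx, hσy⟩ := exists_fixed_point_with_xi v (E⁄K) hΔ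
      (algebraMap ℚ K s) (algebraMap ℚ K d) (algebraMap ℚ K b) (algebraMap ℚ K e)
      hb₂ hb₄ hb₆ h2 hvb hvd hve he0' (σ : K →+* K) hσ
      (hfix _) (hfix _) (hfix s) (hfix e) (by rw [← map_pow]; exact hfix _) (hfix b) hM0 hMn
    refine ⟨Point.some x y h, ?_, ?_⟩
    · rw [Point.map_some]
      congr 1
    · exact hM (Point.some x y h) (Point.some_ne_zero h) hx

end

end S05H5
end MergeWrap_S05_H5_Assembly
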